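import Fermat.Agent.S25.H806.GlueCover

/-!
# S25 / block GLUE / leaf G1 (helper806): morphisms glue — pullback functors, sectionwise form

For an open immersion `g : Y ⟶ X` and `φ : g^* M ⟶ g^* N` (pullback functors), `onOpen g φ V hV`
is the component `Γ(M, V) ⟶ Γ(N, V)` of `φ` over an open `V ≤ g.opensRange` of `X`, defined via
the unit of `g^* ⊣ g_*` (an isomorphism on such `V`).

* `pullback_map_eq_iff`: `g^* ψ = φ ↔ ∀ V ≤ range g, ψ.app V = onOpen g φ V`;
* `existsUnique_hom_of_compatOnPullback`: local morphisms with equal components glue uniquely;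
* `hom_ext_of_cover_pullback`, `isIso_of_cover_pullback`: joint faithfulness / conservativity.
-/

set_option autoImplicit false

open CategoryTheory AlgebraicGeometry TopologicalSpace Opposite
open AlgebraicGeometry.Scheme.Modules

universe u

namespace Fermat.Agent.S25.H806

section Single

variable {X Y : Scheme.{u}} (g : Y ⟶ X) {M N : X.Modules}

/-- The unit of the adjunction `g^* ⊣ g_*`, as a morphism of `𝒪_X`-modules. -/
noncomputable def pbUnit (N : X.Modules) : N ⟶ (pushforward g).obj ((pullback g).obj N) :=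
  (pullbackPushforwardAdjunction g).unit.app N

/-- The transpose of a morphism `g^* M ⟶ K`. -/
noncomputable def transpose {K : Y.Modules} (φ : (pullback g).obj M ⟶ K) :
    M ⟶ (pushforward g).obj K :=
  (pullbackPushforwardAdjunction g).homEquiv _ _ φ

theorem transpose_eq {K : Y.Modules} (φ : (pullback g).obj M ⟶ K) :
    transpose g φ = pbUnit g M ≫ (pushforward g).map φ :=
  Adjunction.homEquiv_unit _ _ _ _

theorem transpose_injective {K : Y.Modules} : Function.Injective (transpose g (M := M) (K := K)) :=
  ((pullbackPushforwardAdjunction g).homEquiv _ _).injective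

theorem transpose_map (ψ : M ⟶ N) : transpose g ((pullback g).map ψ) = ψ ≫ pbUnit g N := by
  rw [transpose_eq]
  exact ((pullbackPushforwardAdjunction g).unit.naturality ψ).symm

/-- The unit of the restriction adjunction. -/
noncomputable def resUnit [IsOpenImmersion g] (N : X.Modules) :
    N ⟶ (pushforward g).obj (N.restrict g) :=
  (restrictAdjunction g).unit.app N

theorem pbUnit_eq [IsOpenImmersion g] (N : X.Modules) :
    pbUnit g N = resUnit g N ≫ (pushforward g).map ((restrictFunctorIsoPullback g).hom.app N) :=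
  (Adjunction.unit_leftAdjointUniq_hom_app (restrictAdjunction g)
    (pullbackPushforwardAdjunction g) N).symm

theorem isIso_presheaf_map_of_eq (N : X.Modules) {V V' : X.Opens} (h : V = V') (i : V ⟶ V') :
    IsIso (N.presheaf.map i.op) := by
  subst h
  have : i = 𝟙 _ := Subsingleton.elim _ _
  rw [this, op_id, N.presheaf.map_id]
  infer_instance

theorem isIso_resUnit_app [IsOpenImmersion g] (N : X.Modules) (V : X.Opens)
    (hV : V ≤ g.opensRange) : IsIso ((resUnit g N).app V) := by
  have e : g ''ᵁ (g ⁻¹ᵁ V) = V := by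
    rw [Scheme.Hom.image_preimage_eq_opensRange_inf]; exact inf_eq_right.mpr hV
  have h : (resUnit g N).app V = N.presheaf.map (homOfLE (g.image_preimage_le V)).op :=
    restrictAdjunction_unit_app_app g N V
  rw [h]
  exact isIso_presheaf_map_of_eq N e _

theorem isIso_pbUnit_app [IsOpenImmersion g] (N : X.Modules) (V : X.Opens)
    (hV : V ≤ g.opensRange) : IsIso ((pbUnit g N).app V) := by
  rw [pbUnit_eq, Scheme.Modules.Hom.comp_app]
  have := isIso_resUnit_app g N V hV
  have : IsIso (((pushforward g).map ((restrictFunctorIsoPullback g).hom.app N)).app V) := by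
    rw [pushforward_map_app]
    exact Scheme.Modules.Hom.isIso_iff_isIso_app.mp inferInstance _
  infer_instance


theorem app_naturality {X : Scheme.{u}} {M N : X.Modules} (φ : M ⟶ N) {V V' : X.Opens}
    (i : V ⟶ V') : M.presheaf.map i.op ≫ φ.app V = φ.app V' ≫ N.presheaf.map i.op :=
  φ.mapPresheaf.naturality i.op

variable [IsOpenImmersion g]

/-- The component over an open `V` of `X` contained in the range of the open immersion `g` of a
local morphism `φ : g^* M ⟶ g^* N`, as a map `Γ(M, V) ⟶ Γ(N, V)`. -/
noncomputable def onOpen (φ : (pullback g).obj M ⟶ (pullback g).obj N) (V : X.Opens)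
    (hV : V ≤ g.opensRange) : Γ(M, V) ⟶ Γ(N, V) :=
  haveI := isIso_pbUnit_app g N V hV
  (transpose g φ).app V ≫ inv ((pbUnit g N).app V)

theorem onOpen_comp_pbUnit (φ : (pullback g).obj M ⟶ (pullback g).obj N) (V : X.Opens)
    (hV : V ≤ g.opensRange) :
    onOpen g φ V hV ≫ (pbUnit g N).app V = (transpose g φ).app V := by
  have := isIso_pbUnit_app g N V hV
  rw [onOpen, Category.assoc, IsIso.inv_hom_id, Category.comp_id]

theorem onOpen_eq_iff (φ : (pullback g).obj M ⟶ (pullback g).obj N) (V : X.Opens)
    (hV : V ≤ g.opensRange) (α : Γ(M, V) ⟶ Γ(N, V)) :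
    α = onOpen g φ V hV ↔ α ≫ (pbUnit g N).app V = (transpose g φ).app V := by
  have := isIso_pbUnit_app g N V hV
  rw [← onOpen_comp_pbUnit g φ V hV, cancel_mono]

theorem onOpen_map (ψ : M ⟶ N) (V : X.Opens) (hV : V ≤ g.opensRange) :
    onOpen g ((pullback g).map ψ) V hV = ψ.app V := by
  symm
  rw [onOpen_eq_iff, transpose_map, Scheme.Modules.Hom.comp_app]

theorem onOpen_naturality (φ : (pullback g).obj M ⟶ (pullback g).obj N) {V V' : X.Opens}
    (h : V ≤ V') (hV' : V' ≤ g.opensRange) :
    M.presheaf.map (homOfLE h).op ≫ onOpen g φ V (h.trans hV') =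
      onOpen g φ V' hV' ≫ N.presheaf.map (homOfLE h).op := by
  have := isIso_pbUnit_app g N V (h.trans hV')
  rw [← cancel_mono ((pbUnit g N).app V), Category.assoc, onOpen_comp_pbUnit, Category.assoc,
    app_naturality (pbUnit g N) (homOfLE h), ← Category.assoc, onOpen_comp_pbUnit,
    app_naturality (transpose g φ) (homOfLE h)]

theorem onOpen_smul (φ : (pullback g).obj M ⟶ (pullback g).obj N) (V : X.Opens)
    (hV : V ≤ g.opensRange) (r : Γ(X, V)) (x : Γ(M, V)) :
    onOpen g φ V hV (r • x) = r • onOpen g φ V hV x := by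
  have := isIso_pbUnit_app g N V hV
  have hinj : Function.Injective ((pbUnit g N).app V) :=
    ((ConcreteCategory.isIso_iff_bijective _).mp inferInstance).1
  apply hinj
  have h := fun y => ConcreteCategory.congr_hom (onOpen_comp_pbUnit g φ V hV) y
  simp only [ConcreteCategory.comp_apply] at h
  rw [h, Scheme.Modules.Hom.app_smul, Scheme.Modules.Hom.app_smul, h]

/-- Morphisms into a pushforward along an open immersion are determined by their components on
the opens contained in the range. -/
theorem hom_pushforward_ext {K : Y.Modules} (α β : M ⟶ (pushforward g).obj K)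
    (h : ∀ V : X.Opens, V ≤ g.opensRange → α.app V = β.app V) : α = β := by
  ext V : 1
  have hle : V ⊓ g.opensRange ≤ V := inf_le_left
  have e : g ⁻¹ᵁ (V ⊓ g.opensRange) = g ⁻¹ᵁ V := by
    ext y
    simp
  have hiso : IsIso (((pushforward g).obj K).presheaf.map (homOfLE hle).op) := by
    rw [pushforward_obj_presheaf_map]
    exact isIso_presheaf_map_of_eq K e _
  rw [← cancel_mono (((pushforward g).obj K).presheaf.map (homOfLE hle).op),
    ← app_naturality α (homOfLE hle), ← app_naturality β (homOfLE hle),
    h _ inf_le_right]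

theorem pullback_map_eq_iff (ψ : M ⟶ N) (φ : (pullback g).obj M ⟶ (pullback g).obj N) :
    (pullback g).map ψ = φ ↔ ∀ (V : X.Opens) (hV : V ≤ g.opensRange),
      ψ.app V = onOpen g φ V hV := by
  constructor
  · rintro rfl V hV
    exact (onOpen_map g ψ V hV).symm
  · intro h
    apply transpose_injective g
    rw [transpose_map]
    refine hom_pushforward_ext g _ _ (fun V hV => ?_)
    rw [Scheme.Modules.Hom.comp_app, h V hV, onOpen_comp_pbUnit]

theorem onOpen_ext {φ φ' : (pullback g).obj M ⟶ (pullback g).obj N}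
    (h : ∀ (V : X.Opens) (hV : V ≤ g.opensRange), onOpen g φ V hV = onOpen g φ' V hV) :
    φ = φ' := by
  apply transpose_injective g
  refine hom_pushforward_ext g _ _ (fun V hV => ?_)
  rw [← onOpen_comp_pbUnit g φ V hV, ← onOpen_comp_pbUnit g φ' V hV, h V hV]

end Single

section Family

variable {X : Scheme.{u}} {ι : Type*} {Y : ι → Scheme.{u}} (f : ∀ i, Y i ⟶ X)
  [∀ i, IsOpenImmersion (f i)]

/-- Sectionwise compatibility of a family of local morphisms `φ i : (f i)^* M ⟶ (f i)^* N`
(pullback functors): their components agree on every open of `X` contained in the ranges of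
both `f i` and `f j`. -/
def CompatOnPullback {M N : X.Modules}
    (φ : ∀ i, (pullback (f i)).obj M ⟶ (pullback (f i)).obj N) : Prop :=
  ∀ (i j : ι) (V : X.Opens) (hi : V ≤ (f i).opensRange) (hj : V ≤ (f j).opensRange),
    onOpen (f i) (φ i) V hi = onOpen (f j) (φ j) V hj

theorem isBasis_le_opensRange (hf : ∀ x : X, ∃ i, x ∈ Set.range (f i)) :
    Opens.IsBasis (Set.range
      fun p : {p : ι × X.Opens // p.2 ≤ (f p.1).opensRange} => p.1.2) := by
  rw [Opens.isBasis_iff_nbhd]
  intro W x hx
  obtain ⟨i, hi⟩ := hf x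
  exact ⟨_, ⟨⟨⟨i, W ⊓ (f i).opensRange⟩, inf_le_right⟩, rfl⟩, ⟨hx, hi⟩, inf_le_left⟩

variable {f}

/-- The pullbacks of a global morphism are compatible. -/
theorem compatOnPullback_map {M N : X.Modules} (ψ : M ⟶ N) :
    CompatOnPullback f (fun i => (pullback (f i)).map ψ) := by
  intro i j V hi hj
  rw [onOpen_map, onOpen_map]

/-- **G1, cover form (pullback functors, sectionwise compatibility).** -/
theorem existsUnique_hom_of_compatOnPullback (hf : ∀ x : X, ∃ i, x ∈ Set.range (f i))
    (M N : X.Modules) (φ : ∀ i, (pullback (f i)).obj M ⟶ (pullback (f i)).obj N)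
    (hφ : CompatOnPullback f φ) :
    ∃! ψ : M ⟶ N, ∀ i, (pullback (f i)).map ψ = φ i := by
  obtain ⟨ψ, hψ, huniq⟩ := existsUnique_hom_of_basis (isBasis_le_opensRange f hf) M N
    (fun p => onOpen (f p.1.1) (φ p.1.1) p.1.2 p.2)
    (fun p q h => by
      have h1 := hφ p.1.1 q.1.1 p.1.2 p.2 (le_trans h q.2)
      have h2 := onOpen_naturality (f q.1.1) (φ q.1.1) h q.2
      rw [h1, h2])
    (fun p r x => onOpen_smul (f p.1.1) (φ p.1.1) p.1.2 p.2 r x)
  refine ⟨ψ, fun i => ?_, fun ψ' hψ' => huniq ψ' fun p => ?_⟩
  · exact (pullback_map_eq_iff (f i) ψ (φ i)).mpr fun V hV => hψ ⟨⟨i, V⟩, hV⟩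
  · exact (pullback_map_eq_iff (f p.1.1) ψ' (φ p.1.1)).mp (hψ' p.1.1) p.1.2 p.2

/-- Joint faithfulness of the pullbacks to a cover by open immersions. -/
theorem hom_ext_of_cover_pullback (hf : ∀ x : X, ∃ i, x ∈ Set.range (f i)) {M N : X.Modules}
    (φ ψ : M ⟶ N) (h : ∀ i, (pullback (f i)).map φ = (pullback (f i)).map ψ) : φ = ψ :=
  (existsUnique_hom_of_compatOnPullback hf M N _ (compatOnPullback_map φ)).unique
    (fun _ => rfl) (fun i => (h i).symm)

/-- Joint conservativity of the pullbacks to a cover by open immersions. -/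
theorem isIso_of_cover_pullback (hf : ∀ x : X, ∃ i, x ∈ Set.range (f i)) {M N : X.Modules}
    (φ : M ⟶ N) (h : ∀ i, IsIso ((pullback (f i)).map φ)) : IsIso φ := by
  refine isIso_of_cover hf φ (fun i => ?_)
  have e := (restrictFunctorIsoPullback (f i)).hom.naturality φ
  have : (restrictFunctor (f i)).map φ = (restrictFunctorIsoPullback (f i)).hom.app M ≫
      (pullback (f i)).map φ ≫ (restrictFunctorIsoPullback (f i)).inv.app N := by
    rw [← Category.assoc, ← e, Category.assoc, Iso.hom_inv_id_app, Category.comp_id]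
  rw [this]
  have := h i
  infer_instance

end Family

end Fermat.Agent.S25.H806
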