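import Mathlib

/-!
# S25 / block GLUE / leaf G1 (helper806): morphisms of `𝒪_X`-modules glue — basis form

`existsUnique_hom_of_basis`: a family of additive, `𝒪`-linear maps `Γ(M, B i) ⟶ Γ(N, B i)` on a
basis `B` of opens, compatible with restrictions between members of the basis, is the family of
components of a unique morphism of `𝒪_X`-modules `M ⟶ N`.
-/

set_option autoImplicit false

open CategoryTheory AlgebraicGeometry TopologicalSpace Opposite

universe u

namespace Fermat.Agent.S25.H806

variable {X : Scheme.{u}}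

/-- Two morphisms of `𝒪_X`-modules that agree on a basis of opens are equal. -/
theorem hom_ext_of_basis {ι : Type*} {B : ι → X.Opens} (hB : Opens.IsBasis (Set.range B))
    {M N : X.Modules} (φ ψ : M ⟶ N) (h : ∀ i, φ.app (B i) = ψ.app (B i)) : φ = ψ := by
  apply (Scheme.Modules.toPresheaf X).map_injective
  exact TopCat.Sheaf.hom_ext (F := M.presheaf) (F' := ⟨N.presheaf, N.isSheaf⟩) hB
    (α := (Scheme.Modules.toPresheaf X).map φ) (β := (Scheme.Modules.toPresheaf X).map ψ)
    (fun i => h i)

/-- Sections of an `𝒪_X`-module over `W` which agree on all members of a basis contained in `W`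
are equal. -/
theorem section_ext_of_basis {ι : Type*} {B : ι → X.Opens} (hB : Opens.IsBasis (Set.range B))
    (N : X.Modules) (W : X.Opens) (s t : Γ(N, W))
    (h : ∀ i (hi : B i ≤ W), N.presheaf.map (homOfLE hi).op s = N.presheaf.map (homOfLE hi).op t) :
    s = t := by
  refine TopCat.Sheaf.eq_of_locally_eq' (F := ⟨N.presheaf, N.isSheaf⟩)
    (fun i : {i // B i ≤ W} => B i.1) W (fun i => homOfLE i.2) ?_ s t (fun i => h i.1 i.2)
  intro x hx
  obtain ⟨U', ⟨i, rfl⟩, hxU, hUW⟩ := Opens.isBasis_iff_nbhd.mp hB hx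
  exact Opens.mem_iSup.mpr ⟨⟨i, hUW⟩, hxU⟩

/-- **G1, basis form.**  A family of additive maps `α i : Γ(M, B i) ⟶ Γ(N, B i)` indexed by a
basis `B` of the opens of `X`, compatible with the restriction maps between members of the basis
and linear over the structure sheaf, glues to a unique morphism of `𝒪_X`-modules. -/
theorem existsUnique_hom_of_basis {ι : Type*} {B : ι → X.Opens}
    (hB : Opens.IsBasis (Set.range B)) (M N : X.Modules)
    (α : ∀ i, Γ(M, B i) ⟶ Γ(N, B i))
    (hnat : ∀ i j (h : B i ≤ B j),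
      M.presheaf.map (homOfLE h).op ≫ α i = α j ≫ N.presheaf.map (homOfLE h).op)
    (hlin : ∀ i (r : Γ(X, B i)) (x : Γ(M, B i)), α i (r • x) = r • α i x) :
    ∃! φ : M ⟶ N, ∀ i, φ.app (B i) = α i := by
  -- the natural transformation on the basis
  let α' : (inducedFunctor B).op ⋙ M.presheaf ⟶ (inducedFunctor B).op ⋙ N.presheaf :=
    { app := fun i => α i.unop
      naturality := by
        rintro ⟨j⟩ ⟨i⟩ f
        exact (hnat i j (leOfHom f.unop.hom)).symm ▸ rfl }
  let NS : TopCat.Sheaf Ab X := ⟨N.presheaf, N.isSheaf⟩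
  let ψ : M.presheaf ⟶ N.presheaf := TopCat.Sheaf.restrictHomEquivHom M.presheaf NS hB α'
  have hψ : ∀ i, ψ.app (op (B i)) = α i := fun i =>
    TopCat.Sheaf.extend_hom_app M.presheaf NS hB α' i
  have hψlin : ∀ (W : X.Opens) (r : Γ(X, W)) (m : Γ(M, W)),
      ψ.app (op W) (r • m) = r • ψ.app (op W) m := by
    intro W r m
    refine section_ext_of_basis hB N W _ _ (fun i hi => ?_)
    have e1 := ConcreteCategory.congr_hom (ψ.naturality (homOfLE hi).op) (r • m)
    have e2 := ConcreteCategory.congr_hom (ψ.naturality (homOfLE hi).op) m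
    simp only [ConcreteCategory.comp_apply] at e1 e2
    rw [← e1, Scheme.Modules.map_smul M (homOfLE hi) r m,
      Scheme.Modules.map_smul N (homOfLE hi) r, ← e2, hψ i]
    exact hlin i _ _
  refine ⟨⟨PresheafOfModules.homMk (M₁ := M.val) (M₂ := N.val) ψ
    (fun W r m => hψlin W.unop r m)⟩, fun i => ?_, fun φ' hφ' => ?_⟩
  · ext x
    exact congrArg (fun f => f x) (hψ i)
  · exact hom_ext_of_basis hB _ _ fun i => by
      rw [hφ' i]
      ext x
      exact (congrArg (fun f => f x) (hψ i)).symm

end Fermat.Agent.S25.H806
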