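import Fermat.Agent.S25.H806.GluePullback

/-!
# S25 / block GLUE / leaf G1 (helper806): morphisms glue — pullback functors, categorical form

Main results (all for a jointly surjective family of open immersions `f i : Y i ⟶ X`, restriction
being the *pullback functor* `Scheme.Modules.pullback (f i)` used by the Prelude):

* `existsUnique_hom_of_compatPullback`, `existsUnique_iso_of_compatPullback`: local morphisms
  (isomorphisms) whose restrictions to overlaps `W i j` agree modulo `pullbackComp` /
  `pullbackCongr` glue uniquely;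
* `existsUnique_hom_of_openCover`, `existsUnique_iso_of_openCover`: the special case of an open
  cover `U : ι → X.Opens`, overlaps `U i ⊓ U j` (statement G1 of the board);
* `onOpen_pullbackRestr`: restricting a local morphism along `a : W ⟶ Y` does not change its
  components.
-/

set_option autoImplicit false

open CategoryTheory AlgebraicGeometry TopologicalSpace Opposite
open AlgebraicGeometry.Scheme.Modules

universe u

namespace Fermat.Agent.S25.H806

section Restr

variable {X Y W : Scheme.{u}} (a : W ⟶ Y) (g : Y ⟶ X) {M N : X.Modules}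

/-- The restriction of a local morphism `φ : g^* M ⟶ g^* N` along `a : W ⟶ Y`, as a morphism
`(a ≫ g)^* M ⟶ (a ≫ g)^* N` (conjugation of `a^* φ` by `pullbackComp`). -/
noncomputable def pullbackRestr (φ : (pullback g).obj M ⟶ (pullback g).obj N) :
    (pullback (a ≫ g)).obj M ⟶ (pullback (a ≫ g)).obj N :=
  (pullbackComp a g).inv.app M ≫ (pullback a).map φ ≫ (pullbackComp a g).hom.app N

/-- The comparison morphism `g_* g^* N ⟶ (a ≫ g)_* (a ≫ g)^* N`. -/
noncomputable def pbUnitComp (N : X.Modules) :
    (pushforward g).obj ((pullback g).obj N) ⟶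
      (pushforward (a ≫ g)).obj ((pullback (a ≫ g)).obj N) :=
  (pushforward g).map (pbUnit a ((pullback g).obj N)) ≫
    (pushforwardComp a g).hom.app ((pullback a).obj ((pullback g).obj N)) ≫
      (pushforward (a ≫ g)).map ((pullbackComp a g).hom.app N)

theorem pbUnit_comp_inv (N : X.Modules) :
    pbUnit (a ≫ g) N ≫ (pushforward (a ≫ g)).map ((pullbackComp a g).inv.app N) =
      pbUnit g N ≫ (pushforward g).map (pbUnit a ((pullback g).obj N)) ≫
        (pushforwardComp a g).hom.app ((pullback a).obj ((pullback g).obj N)) := by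
  have h := unit_conjugateEquiv
    ((pullbackPushforwardAdjunction g).comp (pullbackPushforwardAdjunction a))
    (pullbackPushforwardAdjunction (a ≫ g)) (pullbackComp a g).inv N
  rw [conjugateEquiv_pullbackComp_inv] at h
  rw [pbUnit, ← h, Adjunction.comp_unit_app, Category.assoc]
  rfl

theorem pbUnit_comp (N : X.Modules) : pbUnit (a ≫ g) N = pbUnit g N ≫ pbUnitComp a g N := by
  have h := pbUnit_comp_inv a g N
  have h2 : (pushforward (a ≫ g)).map ((pullbackComp a g).inv.app N) ≫
      (pushforward (a ≫ g)).map ((pullbackComp a g).hom.app N) = 𝟙 _ := by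
    rw [← Functor.map_comp, Iso.inv_hom_id_app, CategoryTheory.Functor.map_id]
  rw [pbUnitComp, ← Category.assoc, ← Category.assoc, Category.assoc (pbUnit g N), ← h,
    Category.assoc, h2, Category.comp_id]

theorem transpose_pullbackRestr (φ : (pullback g).obj M ⟶ (pullback g).obj N) :
    transpose (a ≫ g) (pullbackRestr a g φ) = transpose g φ ≫ pbUnitComp a g N := by
  rw [transpose_eq, transpose_eq, pullbackRestr, Functor.map_comp, Functor.map_comp,
    ← Category.assoc, pbUnit_comp_inv, pbUnitComp]
  simp only [Category.assoc]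
  congr 1
  have h1 := (pushforwardComp a g).hom.naturality ((pullback a).map φ)
  have h2 : (pushforward g).map (pbUnit a ((pullback g).obj M)) ≫
      (pushforward g).map ((pushforward a).map ((pullback a).map φ)) =
      (pushforward g).map φ ≫ (pushforward g).map (pbUnit a ((pullback g).obj N)) := by
    rw [← Functor.map_comp, ← Functor.map_comp]
    congr 1
    exact ((pullbackPushforwardAdjunction a).unit.naturality φ).symm
  dsimp only [Functor.comp_obj, Functor.comp_map] at h1
  rw [← Category.assoc ((pushforwardComp a g).hom.app _), ← h1]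
  simp only [Category.assoc]
  rw [← Category.assoc ((pushforward g).map (pbUnit a _)), h2]
  simp only [Category.assoc]

theorem opensRange_comp_le [IsOpenImmersion a] [IsOpenImmersion g] :
    (a ≫ g).opensRange ≤ g.opensRange := by
  rw [Scheme.Hom.opensRange_comp]
  exact Scheme.Hom.image_le_opensRange _ _

/-- The components of the restriction of `φ` along `a` are those of `φ`. -/
theorem onOpen_pullbackRestr [IsOpenImmersion a] [IsOpenImmersion g]
    (φ : (pullback g).obj M ⟶ (pullback g).obj N) (V : X.Opens)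
    (hV : V ≤ (a ≫ g).opensRange) :
    onOpen (a ≫ g) (pullbackRestr a g φ) V hV =
      onOpen g φ V (hV.trans (opensRange_comp_le a g)) := by
  symm
  rw [onOpen_eq_iff, pbUnit_comp, transpose_pullbackRestr, Scheme.Modules.Hom.comp_app,
    Scheme.Modules.Hom.comp_app, ← Category.assoc, onOpen_comp_pbUnit]

theorem onOpen_pullbackCongr {w w' : W ⟶ X} [IsOpenImmersion w] [IsOpenImmersion w']
    (h : w = w') (φ' : (pullback w').obj M ⟶ (pullback w').obj N) (V : X.Opens)
    (hV : V ≤ w.opensRange) :
    onOpen w ((pullbackCongr h).hom.app M ≫ φ' ≫ (pullbackCongr h).inv.app N) V hV =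
      onOpen w' φ' V (h ▸ hV) := by
  subst h
  have : (pullbackCongr (rfl : w = w)) = Iso.refl _ := rfl
  simp [this]

end Restr

section Family

variable {X : Scheme.{u}} {ι : Type*} {Y : ι → Scheme.{u}} {f : ∀ i, Y i ⟶ X}
  [∀ i, IsOpenImmersion (f i)]

/-- Categorical compatibility of a family of local morphisms `φ i : (f i)^* M ⟶ (f i)^* N` with
respect to "overlaps" `a i j : W i j ⟶ Y i`, `b i j : W i j ⟶ Y j`: the restrictions of `φ i`
and `φ j` to `W i j` agree modulo the canonical isomorphisms `pullbackComp`, `pullbackCongr`. -/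
def CompatPullback {M N : X.Modules}
    (φ : ∀ i, (pullback (f i)).obj M ⟶ (pullback (f i)).obj N)
    {W : ι → ι → Scheme.{u}} (a : ∀ i j, W i j ⟶ Y i) (b : ∀ i j, W i j ⟶ Y j)
    (hab : ∀ i j, a i j ≫ f i = b i j ≫ f j) : Prop :=
  ∀ i j, pullbackRestr (a i j) (f i) (φ i) =
    (pullbackCongr (hab i j)).hom.app M ≫ pullbackRestr (b i j) (f j) (φ j) ≫
      (pullbackCongr (hab i j)).inv.app N

theorem CompatPullback.compatOnPullback {M N : X.Modules}
    {φ : ∀ i, (pullback (f i)).obj M ⟶ (pullback (f i)).obj N}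
    {W : ι → ι → Scheme.{u}} {a : ∀ i j, W i j ⟶ Y i} {b : ∀ i j, W i j ⟶ Y j}
    [∀ i j, IsOpenImmersion (a i j)] [∀ i j, IsOpenImmersion (b i j)]
    {hab : ∀ i j, a i j ≫ f i = b i j ≫ f j}
    (hW : ∀ i j, (f i).opensRange ⊓ (f j).opensRange ≤ (a i j ≫ f i).opensRange)
    (hφ : CompatPullback φ a b hab) : CompatOnPullback f φ := by
  intro i j V hi hj
  have hV : V ≤ (a i j ≫ f i).opensRange := (le_inf hi hj).trans (hW i j)
  rw [← onOpen_pullbackRestr (a i j) (f i) (φ i) V hV]
  have h := hφ i j
  have h2 := onOpen_pullbackCongr (hab i j) (pullbackRestr (b i j) (f j) (φ j)) V hV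
  rw [← h] at h2
  rw [h2, onOpen_pullbackRestr]

/-- **G1, cover form (pullback functors, categorical compatibility).**
Let `f i : Y i ⟶ X` be a jointly surjective family of open immersions, `M N` two
`𝒪_X`-modules, and `φ i : (f i)^* M ⟶ (f i)^* N` local morphisms.  Suppose given "overlaps"
`a i j : W i j ⟶ Y i`, `b i j : W i j ⟶ Y j` (open immersions with `a ≫ f i = b ≫ f j`) covering
the intersection of the ranges of `f i` and `f j`, on which the restrictions of `φ i` and `φ j`
agree.  Then there is a unique `ψ : M ⟶ N` with `(f i)^* ψ = φ i` for all `i`. -/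
theorem existsUnique_hom_of_compatPullback (hf : ∀ x : X, ∃ i, x ∈ Set.range (f i))
    (M N : X.Modules) (φ : ∀ i, (pullback (f i)).obj M ⟶ (pullback (f i)).obj N)
    {W : ι → ι → Scheme.{u}} (a : ∀ i j, W i j ⟶ Y i) (b : ∀ i j, W i j ⟶ Y j)
    [∀ i j, IsOpenImmersion (a i j)] [∀ i j, IsOpenImmersion (b i j)]
    (hab : ∀ i j, a i j ≫ f i = b i j ≫ f j)
    (hW : ∀ i j, (f i).opensRange ⊓ (f j).opensRange ≤ (a i j ≫ f i).opensRange)
    (hφ : CompatPullback φ a b hab) :
    ∃! ψ : M ⟶ N, ∀ i, (pullback (f i)).map ψ = φ i :=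
  existsUnique_hom_of_compatOnPullback hf M N φ (hφ.compatOnPullback hW)

/-- **G1 for isomorphisms (sectionwise compatibility).** -/
theorem existsUnique_iso_of_compatOnPullback (hf : ∀ x : X, ∃ i, x ∈ Set.range (f i))
    (M N : X.Modules) (e : ∀ i, (pullback (f i)).obj M ≅ (pullback (f i)).obj N)
    (he : CompatOnPullback f (fun i => (e i).hom)) :
    ∃! e₀ : M ≅ N, ∀ i, (pullback (f i)).mapIso e₀ = e i := by
  obtain ⟨ψ, hψ, huniq⟩ := existsUnique_hom_of_compatOnPullback hf M N _ he
  have hiso : IsIso ψ := isIso_of_cover_pullback hf ψ (fun i => by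
    rw [hψ i]; infer_instance)
  refine ⟨asIso ψ, fun i => Iso.ext (hψ i), fun e' he' => Iso.ext ?_⟩
  exact huniq e'.hom (fun i => congrArg Iso.hom (he' i))

/-- **G1 for isomorphisms (categorical compatibility).** -/
theorem existsUnique_iso_of_compatPullback (hf : ∀ x : X, ∃ i, x ∈ Set.range (f i))
    (M N : X.Modules) (e : ∀ i, (pullback (f i)).obj M ≅ (pullback (f i)).obj N)
    {W : ι → ι → Scheme.{u}} (a : ∀ i j, W i j ⟶ Y i) (b : ∀ i j, W i j ⟶ Y j)
    [∀ i j, IsOpenImmersion (a i j)] [∀ i j, IsOpenImmersion (b i j)]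
    (hab : ∀ i j, a i j ≫ f i = b i j ≫ f j)
    (hW : ∀ i j, (f i).opensRange ⊓ (f j).opensRange ≤ (a i j ≫ f i).opensRange)
    (he : CompatPullback (fun i => (e i).hom) a b hab) :
    ∃! e₀ : M ≅ N, ∀ i, (pullback (f i)).mapIso e₀ = e i :=
  existsUnique_iso_of_compatOnPullback hf M N e (he.compatOnPullback hW)

end Family

section OpenCover

variable {X : Scheme.{u}} {ι : Type*} (U : ι → X.Opens)

theorem exists_mem_range_ι_of_iSup_eq_top (hU : (⨆ i, U i) = ⊤) (x : X) :
    ∃ i, x ∈ Set.range (U i).ι := by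
  have hx : x ∈ (⨆ i, U i) := hU ▸ Opens.mem_top x
  obtain ⟨i, hi⟩ := Opens.mem_iSup.mp hx
  exact ⟨i, ⟨⟨x, hi⟩, rfl⟩⟩

/-- **G1 as stated on the board.**  `U` an open cover of `X`, restriction to `U i` is
`Scheme.Modules.pullback (U i).ι`, the overlaps are the open subschemes `U i ⊓ U j`. -/
theorem existsUnique_hom_of_openCover (hU : (⨆ i, U i) = ⊤) (M N : X.Modules)
    (φ : ∀ i, (pullback (U i).ι).obj M ⟶ (pullback (U i).ι).obj N)
    (hφ : CompatPullback (f := fun i => (U i).ι) φ
      (W := fun i j => (U i ⊓ U j).toScheme)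
      (fun i j => X.homOfLE inf_le_left) (fun i j => X.homOfLE inf_le_right)
      (fun i j => by rw [X.homOfLE_ι, X.homOfLE_ι])) :
    ∃! ψ : M ⟶ N, ∀ i, (pullback (U i).ι).map ψ = φ i := by
  refine existsUnique_hom_of_compatPullback (exists_mem_range_ι_of_iSup_eq_top U hU) M N φ
    _ _ _ (fun i j => ?_) hφ
  rw [Scheme.Hom.opensRange_comp, Scheme.opensRange_homOfLE,
    Scheme.Hom.image_preimage_eq_opensRange_inf]
  simp

/-- **G1 for isomorphisms, as stated on the board.** -/
theorem existsUnique_iso_of_openCover (hU : (⨆ i, U i) = ⊤) (M N : X.Modules)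
    (e : ∀ i, (pullback (U i).ι).obj M ≅ (pullback (U i).ι).obj N)
    (he : CompatPullback (f := fun i => (U i).ι) (fun i => (e i).hom)
      (W := fun i j => (U i ⊓ U j).toScheme)
      (fun i j => X.homOfLE inf_le_left) (fun i j => X.homOfLE inf_le_right)
      (fun i j => by rw [X.homOfLE_ι, X.homOfLE_ι])) :
    ∃! e₀ : M ≅ N, ∀ i, (pullback (U i).ι).mapIso e₀ = e i := by
  refine existsUnique_iso_of_compatPullback (exists_mem_range_ι_of_iSup_eq_top U hU) M N e
    _ _ _ (fun i j => ?_) he
  rw [Scheme.Hom.opensRange_comp, Scheme.opensRange_homOfLE,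
    Scheme.Hom.image_preimage_eq_opensRange_inf]
  simp

end OpenCover

end Fermat.Agent.S25.H806
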