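import Fermat.Agent.S25.H806.GlueBasis

/-!
# S25 / block GLUE / leaf G1 (helper806): morphisms of `𝒪_X`-modules glue — cover form

`f i : Y i ⟶ X` is a jointly surjective family of open immersions (for instance `(U i).ι` for an
open cover `U`).  Restriction is `Scheme.Modules.restrictFunctor (f i)`; sections of
`M.restrict (f i)` over `V` are *definitionally* the sections of `M` over `f i ''ᵁ V`.
-/

set_option autoImplicit false

open CategoryTheory AlgebraicGeometry TopologicalSpace Opposite

universe u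

namespace Fermat.Agent.S25.H806

section Single

variable {X Y : Scheme.{u}} (g : Y ⟶ X) [IsOpenImmersion g] {M N : X.Modules}

/-- The component over `V ⊆ Y` of a local morphism `φ : M|_Y ⟶ N|_Y`, viewed as a map between
the sections of `M` and `N` over the image of `V` in `X`. -/
noncomputable def appImage (φ : M.restrict g ⟶ N.restrict g) (V : Y.Opens) : Γ(M, g ''ᵁ V) ⟶ Γ(N, g ''ᵁ V) :=
  φ.app V

theorem appImage_naturality (φ : M.restrict g ⟶ N.restrict g) {V V' : Y.Opens} (h : V ≤ V') :
    M.presheaf.map (homOfLE (Scheme.Hom.image_mono g h)).op ≫ appImage g φ V =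
      appImage g φ V' ≫ N.presheaf.map (homOfLE (Scheme.Hom.image_mono g h)).op :=
  φ.mapPresheaf.naturality (homOfLE h).op

theorem appImage_smul (φ : M.restrict g ⟶ N.restrict g) (V : Y.Opens) (r : Γ(X, g ''ᵁ V))
    (x : Γ(M, g ''ᵁ V)) : appImage g φ V (r • x) = r • appImage g φ V x := by
  have h := φ.app_smul (U := V) ((g.appIso V).hom r) x
  have e : (g.appIso V).inv ((g.appIso V).hom r) = r := by simp
  have h' : appImage g φ V (((g.appIso V).inv ((g.appIso V).hom r)) • x) =
      ((g.appIso V).inv ((g.appIso V).hom r)) • appImage g φ V x := h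
  rwa [e] at h'

/-- The components of the restriction of a global morphism. -/
@[simp]
theorem appImage_restrictFunctor_map (φ : M ⟶ N) (V : Y.Opens) :
    appImage g ((Scheme.Modules.restrictFunctor g).map φ) V = φ.app (g ''ᵁ V) := rfl

theorem restrict_hom_ext {φ ψ : M.restrict g ⟶ N.restrict g}
    (h : ∀ V, appImage g φ V = appImage g ψ V) : φ = ψ :=
  Scheme.Modules.hom_ext _ _ h

end Single

variable {X : Scheme.{u}} {ι : Type*} {Y : ι → Scheme.{u}} (f : ∀ i, Y i ⟶ X)
  [∀ i, IsOpenImmersion (f i)]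

/-- The images of the opens of the members of a jointly surjective family of open immersions
form a basis of the topology of the target. -/
theorem isBasis_image_of_cover (hf : ∀ x : X, ∃ i, x ∈ Set.range (f i)) :
    Opens.IsBasis (Set.range fun p : Σ i, (Y i).Opens => (f p.1) ''ᵁ p.2) := by
  rw [Opens.isBasis_iff_nbhd]
  intro W x hx
  obtain ⟨i, y, rfl⟩ := hf x
  refine ⟨_, ⟨⟨i, (f i) ⁻¹ᵁ W⟩, rfl⟩, ⟨y, hx, rfl⟩, ?_⟩
  show (f i) ''ᵁ ((f i) ⁻¹ᵁ W) ≤ W
  rw [Scheme.Hom.image_preimage_eq_opensRange_inf]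
  exact inf_le_right

/-- Sectionwise compatibility of a family of local morphisms `φ i : M|_{Y i} ⟶ N|_{Y i}`:
whenever the image of `V ⊆ Y i` in `X` equals the image of `V' ⊆ Y j`, the components
`(φ i).app V` and `(φ j).app V'` agree (as maps `Γ(M, W) ⟶ Γ(N, W)` for the common image `W`). -/
def CompatOn {M N : X.Modules} (φ : ∀ i, M.restrict (f i) ⟶ N.restrict (f i)) : Prop :=
  ∀ (i j : ι) (V : (Y i).Opens) (V' : (Y j).Opens) (h : (f i) ''ᵁ V = (f j) ''ᵁ V'),
    M.presheaf.map (eqToHom h).op ≫ appImage (f i) (φ i) V =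
      appImage (f j) (φ j) V' ≫ N.presheaf.map (eqToHom h).op

variable {f}

theorem CompatOn.of_le {M N : X.Modules} {φ : ∀ i, M.restrict (f i) ⟶ N.restrict (f i)}
    (hφ : CompatOn f φ) (i j : ι) (V : (Y i).Opens) (V' : (Y j).Opens)
    (h : (f i) ''ᵁ V ≤ (f j) ''ᵁ V') :
    M.presheaf.map (homOfLE h).op ≫ appImage (f i) (φ i) V =
      appImage (f j) (φ j) V' ≫ N.presheaf.map (homOfLE h).op := by
  have hle : (f i) ''ᵁ V ≤ (f j).opensRange := h.trans (Scheme.Hom.image_le_opensRange _ _)
  have e : (f i) ''ᵁ V = (f j) ''ᵁ ((f j) ⁻¹ᵁ ((f i) ''ᵁ V)) := by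
    rw [Scheme.Hom.image_preimage_eq_opensRange_inf]
    exact (inf_eq_right.mpr hle).symm
  have hV : (f j) ⁻¹ᵁ ((f i) ''ᵁ V) ≤ V' := by
    intro y hy
    obtain ⟨y', hy', hyy'⟩ := h hy
    exact ((f j).isOpenEmbedding.injective hyy') ▸ hy'
  have h1 := hφ i j V ((f j) ⁻¹ᵁ ((f i) ''ᵁ V)) e
  have h4 := appImage_naturality (f j) (φ j) hV
  have hM : M.presheaf.map (homOfLE h).op =
      M.presheaf.map (homOfLE (Scheme.Hom.image_mono _ hV)).op ≫ M.presheaf.map (eqToHom e).op := by
    rw [← Functor.map_comp]; rfl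
  have hN : N.presheaf.map (homOfLE h).op =
      N.presheaf.map (homOfLE (Scheme.Hom.image_mono _ hV)).op ≫ N.presheaf.map (eqToHom e).op := by
    rw [← Functor.map_comp]; rfl
  rw [hM, hN, Category.assoc, h1, ← Category.assoc, ← Category.assoc, h4]

/-- The restrictions of a global morphism are compatible. -/
theorem compatOn_restrict {M N : X.Modules} (φ : M ⟶ N) :
    CompatOn f (fun i => (Scheme.Modules.restrictFunctor (f i)).map φ) := by
  intro i j V V' h
  exact φ.mapPresheaf.naturality (eqToHom h).op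

/-- **G1, cover form (restriction functors).**  Let `f i : Y i ⟶ X` be a jointly surjective
family of open immersions, `M N` two `𝒪_X`-modules and `φ i : M|_{Y i} ⟶ N|_{Y i}` a family of
morphisms which is compatible on overlaps.  Then there is a unique `φ : M ⟶ N` restricting to
`φ i` for all `i`. -/
theorem existsUnique_hom_of_cover (hf : ∀ x : X, ∃ i, x ∈ Set.range (f i)) (M N : X.Modules)
    (φ : ∀ i, M.restrict (f i) ⟶ N.restrict (f i)) (hφ : CompatOn f φ) :
    ∃! ψ : M ⟶ N, ∀ i, (Scheme.Modules.restrictFunctor (f i)).map ψ = φ i := by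
  obtain ⟨ψ, hψ, huniq⟩ := existsUnique_hom_of_basis (isBasis_image_of_cover f hf) M N
    (fun p => appImage (f p.1) (φ p.1) p.2)
    (fun p q h => hφ.of_le p.1 q.1 p.2 q.2 h)
    (fun p r x => appImage_smul (f p.1) (φ p.1) p.2 r x)
  refine ⟨ψ, fun i => ?_, fun ψ' hψ' => huniq ψ' fun p => ?_⟩
  · exact restrict_hom_ext (f i) fun V => hψ ⟨i, V⟩
  · rw [← hψ' p.1]
    rfl

/-- Joint faithfulness of restriction to a cover. -/
theorem hom_ext_of_cover (hf : ∀ x : X, ∃ i, x ∈ Set.range (f i)) {M N : X.Modules}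
    (φ ψ : M ⟶ N)
    (h : ∀ i, (Scheme.Modules.restrictFunctor (f i)).map φ =
      (Scheme.Modules.restrictFunctor (f i)).map ψ) : φ = ψ :=
  (existsUnique_hom_of_cover hf M N _ (compatOn_restrict φ)).unique (fun _ => rfl)
    (fun i => (h i).symm)

/-- A morphism which restricts to an isomorphism on every member of a cover is an
isomorphism. -/
theorem isIso_of_cover (hf : ∀ x : X, ∃ i, x ∈ Set.range (f i)) {M N : X.Modules}
    (φ : M ⟶ N) (h : ∀ i, IsIso ((Scheme.Modules.restrictFunctor (f i)).map φ)) : IsIso φ := by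
  have hB := isBasis_image_of_cover f hf
  have : IsIso ((Scheme.Modules.toPresheaf X).map φ) := by
    let MS : TopCat.Sheaf Ab X := ⟨M.presheaf, M.isSheaf⟩
    let NS : TopCat.Sheaf Ab X := ⟨N.presheaf, N.isSheaf⟩
    let φS : MS ⟶ NS := ⟨(Scheme.Modules.toPresheaf X).map φ⟩
    have hiso : IsIso φS := by
      refine TopCat.Sheaf.isIso_iff_isIso_basis hB (fun p => ?_)
      have := h p.1
      exact (Scheme.Modules.Hom.isIso_iff_isIso_app.mp (h p.1)) p.2
    exact (inferInstance : IsIso ((TopCat.Sheaf.forget Ab X).map φS))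
  exact isIso_of_reflects_iso φ (Scheme.Modules.toPresheaf X)

end Fermat.Agent.S25.H806
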